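/-
S12 cell, brick (Q), analytic half, file 2 (helper21): the complex isogeny `ℂ/Λ → ℂ/Λ'` in point
form, with Vélu's coordinates.

For `IsSuper L L' p z₀` (`Λ' = Λ + ℤ z₀`, helper4) and helper75's uniformisations
`toPoint L : ℂ →+ E_Λ(ℂ)`, `E_Λ = curve L.g₂ L.g₃ : Y² = X³ - g₂/4 X - g₃/4`:

* `disc_super_ne_zero` : `Δ(Λ) ≠ 0 → Δ(Λ') ≠ 0` (`p` odd);
* `dwp_super'` : `℘'_{Λ'}(z) = ℘'_Λ(z) + ∑_{0<k<p} ℘'_Λ(z + k z₀)` (from helper4's landed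
  `S12P/IsogPt4.dwp_super`; `wp_super` is cited from there as well);
* `exists_isog` : there is a surjective group homomorphism `φ : E_Λ(ℂ) →+ E_Λ'(ℂ)` with
  `φ ∘ toPoint L = toPoint L'`, kernel `⟨Q⟩`, `Q = toPoint L z₀`, and for `P ∉ ⟨Q⟩`
  `x(φ P) = x(P) + ∑_{0<k<p} (x(P + kQ) - x(kQ))`, `y(φ P) = y(P) + ∑_{0<k<p} y(P + kQ)`
  (Vélu's formulas; `ptX`, `ptY` of helper89's `M2/Defs89`).
-/
import Mathlib
import Fermat.Agent.S15P.M1.Isog4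
import Fermat.Agent.S15P.M1.Unif75
import Fermat.Agent.S15P.M2.Defs89
import Fermat.Agent.S12P.IsogPt4

set_option autoImplicit false

namespace Fermat.Agent.S12P.Iso.IsogC21

open scoped PeriodPair
open WeierstrassCurve
open Fermat.Agent.S15P.M1.Isog4 Fermat.Agent.S15P.M1.Wp75 Fermat.Agent.S15P.M2

variable {L L' : PeriodPair} {p : ℕ} {z₀ : ℂ}

/-- `℘'_{Λ'}(z) = ℘'_Λ(z) + ∑_{0<k<p} ℘'_Λ(z + k z₀)`. -/
theorem dwp_super' (S : IsSuper L L' p z₀) (hp : 0 < p) (z : ℂ) :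
    ℘'[L'] z = ℘'[L] z + ∑ k ∈ Finset.Ico 1 p, ℘'[L] (z + (k : ℂ) * z₀) := by
  rw [Fermat.Agent.S12P.IsogPt4.dwp_super L L' p z₀ hp S z, Finset.range_eq_Ico,
    Finset.sum_eq_sum_Ico_succ_bot hp]
  simp

/-- `Δ(Λ') ≠ 0` for a superlattice of odd index. -/
theorem disc_super_ne_zero (S : IsSuper L L' p z₀) (hp : Odd p)
    (hΔ : L.g₂ ^ 3 - 27 * L.g₃ ^ 2 ≠ 0) : L'.g₂ ^ 3 - 27 * L'.g₃ ^ 2 ≠ 0 := by
  intro h0
  have h := disc_super L L' p z₀ hp S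
  rw [h0, zero_mul] at h
  exact pow_ne_zero p hΔ h.symm

theorem nsmul_toPoint (hΔ : L.g₂ ^ 3 - 27 * L.g₃ ^ 2 ≠ 0) (k : ℕ) (z : ℂ) :
    k • toPoint L hΔ z = toPoint L hΔ ((k : ℂ) * z) := by
  rw [← nsmul_eq_mul, map_nsmul]

theorem zsmul_toPoint (hΔ : L.g₂ ^ 3 - 27 * L.g₃ ^ 2 ≠ 0) (k : ℤ) (z : ℂ) :
    k • toPoint L hΔ z = toPoint L hΔ ((k : ℂ) * z) := by
  rw [← zsmul_eq_mul, map_zsmul]

theorem ptX_toPoint (hΔ : L.g₂ ^ 3 - 27 * L.g₃ ^ 2 ≠ 0) {z : ℂ} (hz : z ∉ L.lattice) :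
    ptX (toPoint L hΔ z) = ℘[L] z := by
  rw [toPoint_of_notMem L hΔ hz, ptX_some]

theorem ptY_toPoint (hΔ : L.g₂ ^ 3 - 27 * L.g₃ ^ 2 ≠ 0) {z : ℂ} (hz : z ∉ L.lattice) :
    ptY (toPoint L hΔ z) = ℘'[L] z / 2 := by
  rw [toPoint_of_notMem L hΔ hz, ptY_some]

/-- `toPoint L z ∈ ⟨toPoint L z₀⟩ ↔ z ∈ Λ'`. -/
theorem toPoint_mem_zmultiples_iff (S : IsSuper L L' p z₀)
    (hΔ : L.g₂ ^ 3 - 27 * L.g₃ ^ 2 ≠ 0) (z : ℂ) :
    toPoint L hΔ z ∈ AddSubgroup.zmultiples (toPoint L hΔ z₀) ↔ z ∈ L'.lattice := by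
  rw [AddSubgroup.mem_zmultiples_iff]
  constructor
  · rintro ⟨m, hm⟩
    rw [zsmul_toPoint, ← sub_eq_zero, ← map_sub, toPoint_eq_zero_iff] at hm
    have h1 : (m : ℂ) * z₀ ∈ L'.lattice := by
      obtain ⟨n, rfl | rfl⟩ := Int.eq_nat_or_neg m
      · simpa using S.nat_mul_mem' n
      · have := L'.lattice.neg_mem (S.nat_mul_mem' n)
        simpa using this
    have h2 : z = (m : ℂ) * z₀ - ((m : ℂ) * z₀ - z) := by ring
    rw [h2]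
    exact L'.lattice.sub_mem h1 (S.le hm)
  · intro hz
    obtain ⟨k, hk⟩ := (S.mem z).mp hz
    refine ⟨(k : ℤ), ?_⟩
    rw [zsmul_toPoint, ← sub_eq_zero, ← map_sub, toPoint_eq_zero_iff]
    have h2 : ((k : ℤ) : ℂ) * z₀ - z = -(z - (k : ℂ) * z₀) := by push_cast; ring
    rw [h2]
    exact L.lattice.neg_mem hk

/-- **The complex isogeny with Vélu's coordinates.** -/
theorem exists_isog (S : IsSuper L L' p z₀) (hp : 0 < p)
    (hΔ : L.g₂ ^ 3 - 27 * L.g₃ ^ 2 ≠ 0) (hΔ' : L'.g₂ ^ 3 - 27 * L'.g₃ ^ 2 ≠ 0) :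
    ∃ φ : (curve L.g₂ L.g₃).toAffine.Point →+ (curve L'.g₂ L'.g₃).toAffine.Point,
      (∀ z, φ (toPoint L hΔ z) = toPoint L' hΔ' z) ∧ Function.Surjective φ ∧
      (∀ P, φ P = 0 ↔ P ∈ AddSubgroup.zmultiples (toPoint L hΔ z₀)) ∧
      ∀ P, P ∉ AddSubgroup.zmultiples (toPoint L hΔ z₀) →
        ptX (φ P) = ptX P + ∑ k ∈ Finset.Ico 1 p,
          (ptX (P + k • toPoint L hΔ z₀) - ptX (k • toPoint L hΔ z₀)) ∧
        ptY (φ P) = ptY P + ∑ k ∈ Finset.Ico 1 p, ptY (P + k • toPoint L hΔ z₀) := by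
  have hker : (toPoint L hΔ).ker ≤ (toPoint L' hΔ').ker := by
    intro z hz
    rw [AddMonoidHom.mem_ker, toPoint_eq_zero_iff] at hz ⊢
    exact S.le hz
  let φ : (curve L.g₂ L.g₃).toAffine.Point →+ (curve L'.g₂ L'.g₃).toAffine.Point :=
    (toPoint L hΔ).liftOfSurjective (toPoint_surjective L hΔ) ⟨toPoint L' hΔ', hker⟩
  have hφ : ∀ z, φ (toPoint L hΔ z) = toPoint L' hΔ' z := fun z =>
    AddMonoidHom.liftOfRightInverse_comp_apply _ _ _ ⟨toPoint L' hΔ', hker⟩ z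
  refine ⟨φ, hφ, ?_, ?_, ?_⟩
  · intro P'
    obtain ⟨z, rfl⟩ := toPoint_surjective L' hΔ' P'
    exact ⟨toPoint L hΔ z, hφ z⟩
  · intro P
    obtain ⟨z, rfl⟩ := toPoint_surjective L hΔ P
    rw [hφ, toPoint_eq_zero_iff, toPoint_mem_zmultiples_iff S hΔ]
  · intro P hP
    obtain ⟨z, rfl⟩ := toPoint_surjective L hΔ P
    rw [toPoint_mem_zmultiples_iff S hΔ] at hP
    have hzL : z ∉ L.lattice := fun h => hP (S.le h)
    have hadd : ∀ k : ℕ, toPoint L hΔ z + k • toPoint L hΔ z₀ = toPoint L hΔ (z + (k : ℂ) * z₀) := by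
      intro k
      rw [nsmul_toPoint, ← map_add]
    rw [hφ, ptX_toPoint hΔ' hP, ptY_toPoint hΔ' hP, ptX_toPoint hΔ hzL, ptY_toPoint hΔ hzL]
    constructor
    · rw [Fermat.Agent.S12P.IsogPt4.wp_super L L' p z₀ hp S z]
      congr 1
      refine Finset.sum_congr rfl fun k hk => ?_
      rw [hadd k, ptX_toPoint hΔ (S.add_notMem hP k), nsmul_toPoint,
        ptX_toPoint hΔ (S.nat_mul_notMem hk)]
    · rw [dwp_super' S hp z, add_div, Finset.sum_div]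
      congr 1
      refine Finset.sum_congr rfl fun k _ => ?_
      rw [hadd k, ptY_toPoint hΔ (S.add_notMem hP k)]

end Fermat.Agent.S12P.Iso.IsogC21
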