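/-
S12 cell, brick STEP, (ALG) over `ℂ` (helper21): Vélu's isogeny for a general Weierstrass model
over `ℂ`.

`Wc` a Weierstrass curve over `ℂ` with `Δ ≠ 0`, `T` a point of odd prime order `p`,
`t = ½ ∑_{0<k<p} tq (k • T)`, `w = ½ ∑_{0<k<p} (psi2 (k • T)² + x(k • T) tq (k • T))` and
`V = ⟨a₁, a₂, a₃, a₄ - 5t, a₆ - b₂ t - 7w⟩` (Vélu's curve).  Then (`exists_velu_complex`):

* `V.Δ ≠ 0`, `V.c₄ = veluC4 p T`, `V.Δ * veluPsi p T ^ 4 = Wc.Δ ^ p`;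
* there is a surjective group homomorphism `φ : Wc(ℂ) →+ V(ℂ)` with kernel `⟨T⟩` and, off the
  kernel,
  `x(φ P) = x(P) + ∑_{0<k<p} (x(P + kT) - x(kT))`, `y(φ P) = y(P) + ∑_{0<k<p} (y(P + kT) - y(kT))`.

Proof: the short forms of `Wc` and `V` (same variable change `Top89.shortVC Wc`, `u = 1`) are
`curve g₂(Λ) g₃(Λ)` and `curve g₂(Λ') g₃(Λ')`, `Λ' = Λ + ℤ z₀` (`Unif21.exists_periodPair`,
`Tau36.exists_tau_super`, `Isog4.g₂_super`, `IsogPt4.g₃_super`), and the map is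
`IsogC21.exists_isog` conjugated by `S05.Transfer.vcEquiv`.
-/
import Mathlib
import Fermat.Agent.S12P.Iso.IsogC21
import Fermat.Agent.S15P.M1.Top89
import Fermat.Agent.S15P.M1.Tau36
import Fermat.Agent.S15P.M1.Unif21

set_option autoImplicit false

namespace Fermat.Agent.S12P.Iso.VeluC21

open scoped PeriodPair
open WeierstrassCurve WeierstrassCurve.Affine
open Fermat.Agent.S15P.M1 Fermat.Agent.S15P.M1.Isog4 Fermat.Agent.S15P.M1.Wp75
open Fermat.Agent.S15P.M2 Fermat.Agent.S05.Transfer Fermat.Agent.S12P.Iso.IsogC21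

/-- `∑_{0<k<p} ℘'(k z₀) = 0` (symmetry `k ↔ p - k`). -/
theorem sum_dwp_eq_zero {L L' : PeriodPair} {p : ℕ} {z₀ : ℂ} (S : IsSuper L L' p z₀) :
    ∑ k ∈ Finset.Ico 1 p, ℘'[L] ((k : ℂ) * z₀) = 0 := by
  have h := Finset.sum_Ico_reflect (fun j : ℕ => ℘'[L] ((j : ℂ) * z₀)) 1 (m := p) (n := p)
    (by omega)
  have h2 : ∑ j ∈ Finset.Ico 1 p, ℘'[L] (((p - j : ℕ) : ℂ) * z₀)
      = - ∑ j ∈ Finset.Ico 1 p, ℘'[L] ((j : ℂ) * z₀) := by
    rw [← Finset.sum_neg_distrib]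
    refine Finset.sum_congr rfl fun j hj => ?_
    rw [Finset.mem_Ico] at hj
    have e : ((p - j : ℕ) : ℂ) * z₀ = -((j : ℂ) * z₀) + (p : ℂ) * z₀ := by
      rw [Nat.cast_sub hj.2.le]
      ring
    rw [e, L.derivWeierstrassP_add_coe _ ⟨_, S.p_mul_mem⟩, L.derivWeierstrassP_neg]
  have h3 : ∑ j ∈ Finset.Ico 1 p, ℘'[L] ((j : ℂ) * z₀)
      = - ∑ j ∈ Finset.Ico 1 p, ℘'[L] ((j : ℂ) * z₀) := by
    rw [← h2, h]
    simp
  have h4 : (2 : ℂ) * ∑ j ∈ Finset.Ico 1 p, ℘'[L] ((j : ℂ) * z₀) = 0 := by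
    linear_combination h3
  simpa using h4

/-- `x` under the short-form variable change. -/
theorem ptX_short {W₁ W₂ : WeierstrassCurve ℂ} (W : WeierstrassCurve ℂ)
    (h : Top89.shortVC W • W₂ = W₁) {Q : W₁.toAffine.Point} (hQ : Q ≠ 0) :
    ptX (vcEquiv (Top89.shortVC W) h Q) = ptX Q - W.b₂ / 12 := by
  rcases Q with _ | ⟨x, y, hxy⟩
  · exact absurd rfl hQ
  · rw [vcEquiv_some]
    simp only [ptX_some, vcX, Top89.shortVC, Units.val_one]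
    ring

/-- `y` under the short-form variable change. -/
theorem ptY_short {W₁ W₂ : WeierstrassCurve ℂ} (W : WeierstrassCurve ℂ)
    (h : Top89.shortVC W • W₂ = W₁) {Q : W₁.toAffine.Point} (hQ : Q ≠ 0) :
    ptY (vcEquiv (Top89.shortVC W) h Q)
      = ptY Q - W.a₁ / 2 * ptX Q - (W.a₁ * (-W.b₂ / 12) + W.a₃) / 2 := by
  rcases Q with _ | ⟨x, y, hxy⟩
  · exact absurd rfl hQ
  · rw [vcEquiv_some]
    simp only [ptX_some, ptY_some, vcY, Top89.shortVC, Units.val_one]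
    ring

/-- **Vélu's isogeny over `ℂ`, general Weierstrass model.** -/
theorem exists_velu_complex (Wc : WeierstrassCurve ℂ) (hΔ : Wc.Δ ≠ 0) {p : ℕ} (hp : p.Prime)
    (hp2 : p ≠ 2) (T : Wc.toAffine.Point) (hT : addOrderOf T = p) (t w : ℂ)
    (ht : t = (∑ k ∈ Finset.Ico 1 p, tq (k • T)) / 2)
    (hw : w = (∑ k ∈ Finset.Ico 1 p, (psi2 (k • T) ^ 2 + ptX (k • T) * tq (k • T))) / 2)
    (V : WeierstrassCurve ℂ)
    (hV : V = ⟨Wc.a₁, Wc.a₂, Wc.a₃, Wc.a₄ - 5 * t, Wc.a₆ - Wc.b₂ * t - 7 * w⟩) :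
    V.Δ ≠ 0 ∧ V.c₄ = veluC4 p T ∧ V.Δ * veluPsi p T ^ 4 = Wc.Δ ^ p ∧
      ∃ φ : Wc.toAffine.Point →+ V.toAffine.Point, Function.Surjective φ ∧
        (∀ P, φ P = 0 ↔ P ∈ AddSubgroup.zmultiples T) ∧
        ∀ P, P ∉ AddSubgroup.zmultiples T →
          ptX (φ P) = ptX P + ∑ k ∈ Finset.Ico 1 p, (ptX (P + k • T) - ptX (k • T)) ∧
          ptY (φ P) = ptY P + ∑ k ∈ Finset.Ico 1 p, (ptY (P + k • T) - ptY (k • T)) := by
  have hodd : Odd p := hp.odd_of_ne_two hp2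
  -- the lattice of `Wc`
  have hrel : Wc.Δ = (Wc.c₄ / 12) ^ 3 - 27 * (Wc.c₆ / 216) ^ 2 := by
    have h := Wc.c_relation
    linear_combination (1 / 1728 : ℂ) * h
  obtain ⟨L, hL2, hL3⟩ := Unif21.exists_periodPair (Wc.c₄ / 12) (Wc.c₆ / 216)
    (by rw [← hrel]; exact hΔ)
  have hΔL : L.g₂ ^ 3 - 27 * L.g₃ ^ 2 ≠ 0 := by
    rw [hL2, hL3, ← hrel]
    exact hΔ
  have hsm : Top89.shortVC Wc • Wc = curve L.g₂ L.g₃ := by
    rw [Top89.shortVC_smul, hL2, hL3]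
    rfl
  have hu : (Top89.shortVC Wc).u = 1 := rfl
  -- the point on the short curve and in `ℂ`
  obtain ⟨T', hT'⟩ := (vcEquiv (Top89.shortVC Wc) hsm).surjective T
  have hT'ord : addOrderOf T' = p := by
    rw [← hT, ← hT']
    exact (addOrderOf_injective (vcEquiv (Top89.shortVC Wc) hsm).toAddMonoidHom
      (vcEquiv (Top89.shortVC Wc) hsm).injective T').symm
  obtain ⟨z₀, rfl⟩ := toPoint_surjective L hΔL T'
  have hz₀n : z₀ ∉ L.lattice := by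
    intro hz
    rw [(toPoint_eq_zero_iff L hΔL).mpr hz, addOrderOf_zero] at hT'ord
    exact hp.ne_one hT'ord.symm
  have hpz : (p : ℂ) * z₀ ∈ L.lattice := by
    rw [← toPoint_eq_zero_iff L hΔL, ← nsmul_toPoint, ← hT'ord]
    exact addOrderOf_nsmul_eq_zero _
  obtain ⟨L', τ, hS1, hS2, -, -⟩ := Tau36.exists_tau_super L p hp z₀ hz₀n hpz
  have S : IsSuper L L' p z₀ := ⟨hS1, hS2⟩
  have hΔL' : L'.g₂ ^ 3 - 27 * L'.g₃ ^ 2 ≠ 0 := disc_super_ne_zero S hodd hΔL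
  -- the multiples of `T`
  have hkT : ∀ k : ℕ, k • T = vcEquiv (Top89.shortVC Wc) hsm (toPoint L hΔL ((k : ℂ) * z₀)) := by
    intro k
    rw [← hT', ← map_nsmul, nsmul_toPoint]
  have hk : ∀ k ∈ Finset.Ico 1 p, ptX (k • T) = ℘[L] ((k : ℂ) * z₀) - Wc.b₂ / 12 ∧
      tq (k • T) = 6 * ℘[L] ((k : ℂ) * z₀) ^ 2 - L.g₂ / 2 ∧
      psi2 (k • T) = ℘'[L] ((k : ℂ) * z₀) := by
    intro k hkm
    have hkn : (k : ℂ) * z₀ ∉ L.lattice := S.nat_mul_notMem hkm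
    have hne : toPoint L hΔL ((k : ℂ) * z₀) ≠ 0 := fun h0 =>
      hkn ((toPoint_eq_zero_iff L hΔL).mp h0)
    rw [hkT k]
    refine ⟨?_, ?_, ?_⟩
    · rw [ptX_short Wc hsm hne, ptX_toPoint hΔL hkn]
    · rw [Top89.tq_vc _ hsm hu hne]
      unfold tq
      rw [ptX_toPoint hΔL hkn]
      simp only [WeierstrassCurve.b₂, WeierstrassCurve.b₄, curve_a₁, curve_a₂, curve_a₃, curve_a₄]
      ring
    · rw [Top89.psi2_vc _ hsm hu hne]
      unfold psi2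
      rw [ptX_toPoint hΔL hkn, ptY_toPoint hΔL hkn]
      simp only [curve_a₁, curve_a₃]
      ring
  subst hV
  -- invariants of the Vélu curve
  have hc4 : (⟨Wc.a₁, Wc.a₂, Wc.a₃, Wc.a₄ - 5 * t, Wc.a₆ - Wc.b₂ * t - 7 * w⟩ :
      WeierstrassCurve ℂ).c₄ = veluC4 p T := by
    unfold veluC4
    simp only [WeierstrassCurve.c₄, WeierstrassCurve.b₂, WeierstrassCurve.b₄]
    rw [ht]
    ring
  have hg2 : (⟨Wc.a₁, Wc.a₂, Wc.a₃, Wc.a₄ - 5 * t, Wc.a₆ - Wc.b₂ * t - 7 * w⟩ :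
      WeierstrassCurve ℂ).c₄ / 12 = L'.g₂ := by
    rw [hc4, g₂_super L L' p z₀ hp.pos S]
    unfold veluC4
    rw [Finset.sum_congr rfl fun k hkm => (hk k hkm).2.1]
    have : Wc.toAffine.c₄ = 12 * L.g₂ := by
      rw [hL2]
      ring
    rw [this]
    ring
  have hg3 : (⟨Wc.a₁, Wc.a₂, Wc.a₃, Wc.a₄ - 5 * t, Wc.a₆ - Wc.b₂ * t - 7 * w⟩ :
      WeierstrassCurve ℂ).c₆ / 216 = L'.g₃ := by
    have e1 : (⟨Wc.a₁, Wc.a₂, Wc.a₃, Wc.a₄ - 5 * t, Wc.a₆ - Wc.b₂ * t - 7 * w⟩ :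
        WeierstrassCurve ℂ).c₆ = Wc.c₆ + 252 * Wc.b₂ * (∑ k ∈ Finset.Ico 1 p, tq (k • T))
          + 3024 * ∑ k ∈ Finset.Ico 1 p, (psi2 (k • T) ^ 2 + ptX (k • T) * tq (k • T)) := by
      simp only [WeierstrassCurve.c₆, WeierstrassCurve.b₂, WeierstrassCurve.b₄,
        WeierstrassCurve.b₆]
      rw [ht, hw]
      ring
    have e2 : 252 * Wc.b₂ * (∑ k ∈ Finset.Ico 1 p, tq (k • T))
        + 3024 * ∑ k ∈ Finset.Ico 1 p, (psi2 (k • T) ^ 2 + ptX (k • T) * tq (k • T))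
        = 216 * ∑ k ∈ Finset.Ico 1 p, (140 * ℘[L] ((k : ℂ) * z₀) ^ 3
            - 21 * L.g₂ * ℘[L] ((k : ℂ) * z₀) - 14 * L.g₃) := by
      rw [Finset.mul_sum, Finset.mul_sum, Finset.mul_sum, ← Finset.sum_add_distrib]
      refine Finset.sum_congr rfl fun k hkm => ?_
      obtain ⟨h1, h2, h3⟩ := hk k hkm
      have hsq := L.derivWeierstrassP_sq _ (S.nat_mul_notMem hkm)
      rw [h1, h2, h3]
      linear_combination (3024 : ℂ) * hsq
    rw [e1, add_assoc, e2, Fermat.Agent.S12P.IsogPt4.g₃_super L L' p z₀ hp.pos S]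
    have : Wc.c₆ = 216 * L.g₃ := by
      rw [hL3]
      ring
    rw [this]
    ring
  have hsm' : Top89.shortVC Wc •
      (⟨Wc.a₁, Wc.a₂, Wc.a₃, Wc.a₄ - 5 * t, Wc.a₆ - Wc.b₂ * t - 7 * w⟩ : WeierstrassCurve ℂ)
      = curve L'.g₂ L'.g₃ := by
    have h1 := Top89.shortVC_smul
      (⟨Wc.a₁, Wc.a₂, Wc.a₃, Wc.a₄ - 5 * t, Wc.a₆ - Wc.b₂ * t - 7 * w⟩ : WeierstrassCurve ℂ)
    rw [hg2, hg3] at h1
    exact h1
  have hΔV : (⟨Wc.a₁, Wc.a₂, Wc.a₃, Wc.a₄ - 5 * t, Wc.a₆ - Wc.b₂ * t - 7 * w⟩ :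
      WeierstrassCurve ℂ).Δ = L'.g₂ ^ 3 - 27 * L'.g₃ ^ 2 := by
    have h := (⟨Wc.a₁, Wc.a₂, Wc.a₃, Wc.a₄ - 5 * t, Wc.a₆ - Wc.b₂ * t - 7 * w⟩ :
      WeierstrassCurve ℂ).c_relation
    rw [← hg2, ← hg3]
    linear_combination (1 / 1728 : ℂ) * h
  have hΔW : Wc.Δ = L.g₂ ^ 3 - 27 * L.g₃ ^ 2 := by rw [hL2, hL3, ← hrel]
  have hpsi : veluPsi p T = ∏ k ∈ Finset.Ico 1 p, ℘'[L] ((k : ℂ) * z₀) := by
    unfold veluPsi
    exact Finset.prod_congr rfl fun k hkm => (hk k hkm).2.2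
  refine ⟨by rw [hΔV]; exact hΔL', hc4, ?_, ?_⟩
  · rw [hΔV, hΔW, hpsi]
    exact disc_super L L' p z₀ hodd S
  -- the homomorphism
  obtain ⟨φs, -, hsurj, hker, hcoord⟩ := exists_isog S hp.pos hΔL hΔL'
  refine ⟨((vcEquiv (Top89.shortVC Wc) hsm').toAddMonoidHom.comp φs).comp
    (vcEquiv (Top89.shortVC Wc) hsm).symm.toAddMonoidHom, ?_, ?_, ?_⟩
  · intro Q
    obtain ⟨R, hR⟩ := hsurj ((vcEquiv (Top89.shortVC Wc) hsm').symm Q)
    refine ⟨vcEquiv (Top89.shortVC Wc) hsm R, ?_⟩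
    show vcEquiv (Top89.shortVC Wc) hsm' (φs ((vcEquiv (Top89.shortVC Wc) hsm).symm
      (vcEquiv (Top89.shortVC Wc) hsm R))) = Q
    rw [AddEquiv.symm_apply_apply, hR, AddEquiv.apply_symm_apply]
  · intro P
    have h1 : (((vcEquiv (Top89.shortVC Wc) hsm').toAddMonoidHom.comp φs).comp
        (vcEquiv (Top89.shortVC Wc) hsm).symm.toAddMonoidHom) P
        = vcEquiv (Top89.shortVC Wc) hsm' (φs ((vcEquiv (Top89.shortVC Wc) hsm).symm P)) := rfl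
    rw [h1, AddEquiv.map_eq_zero_iff, hker, AddSubgroup.mem_zmultiples_iff,
      AddSubgroup.mem_zmultiples_iff]
    constructor
    · rintro ⟨m, hm⟩
      refine ⟨m, ?_⟩
      rw [← hT', ← map_zsmul, hm, AddEquiv.apply_symm_apply]
    · rintro ⟨m, hm⟩
      refine ⟨m, ?_⟩
      rw [← hm, ← hT', map_zsmul, AddEquiv.symm_apply_apply]
  · intro P hP
    obtain ⟨P', rfl⟩ := (vcEquiv (Top89.shortVC Wc) hsm).surjective P
    have h1 : (((vcEquiv (Top89.shortVC Wc) hsm').toAddMonoidHom.comp φs).comp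
        (vcEquiv (Top89.shortVC Wc) hsm).symm.toAddMonoidHom)
          (vcEquiv (Top89.shortVC Wc) hsm P')
        = vcEquiv (Top89.shortVC Wc) hsm' (φs P') := by
      show vcEquiv (Top89.shortVC Wc) hsm' (φs ((vcEquiv (Top89.shortVC Wc) hsm).symm
        (vcEquiv (Top89.shortVC Wc) hsm P'))) = _
      rw [AddEquiv.symm_apply_apply]
    have hP' : P' ∉ AddSubgroup.zmultiples (toPoint L hΔL z₀) := by
      intro hmem
      apply hP
      rw [AddSubgroup.mem_zmultiples_iff] at hmem ⊢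
      obtain ⟨m, hm⟩ := hmem
      exact ⟨m, by rw [← hT', ← map_zsmul, hm]⟩
    have hP'0 : P' ≠ 0 := fun h0 => hP' (h0 ▸ zero_mem _)
    have hφ0 : φs P' ≠ 0 := fun h0 => hP' ((hker P').mp h0)
    have hadd0 : ∀ k : ℕ, P' + k • toPoint L hΔL z₀ ≠ 0 := by
      intro k h0
      apply hP'
      rw [eq_neg_of_add_eq_zero_left h0]
      exact neg_mem (AddSubgroup.nsmul_mem_zmultiples _ k)
    have hk0 : ∀ k ∈ Finset.Ico 1 p, k • toPoint L hΔL z₀ ≠ 0 := fun k hkm =>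
      Top89.nsmul_ne_zero_of_order hT'ord hkm
    have haddE : ∀ k : ℕ, vcEquiv (Top89.shortVC Wc) hsm P' + k • T
        = vcEquiv (Top89.shortVC Wc) hsm (P' + k • toPoint L hΔL z₀) := by
      intro k
      rw [map_add, map_nsmul, hT']
    have hkE : ∀ k : ℕ, k • T = vcEquiv (Top89.shortVC Wc) hsm (k • toPoint L hΔL z₀) := by
      intro k
      rw [map_nsmul, hT']
    obtain ⟨hX, hY⟩ := hcoord P' hP'
    have hsum0 : ∑ k ∈ Finset.Ico 1 p, ptY (k • toPoint L hΔL z₀) = 0 := by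
      have h2 : ∀ k ∈ Finset.Ico 1 p, ptY (k • toPoint L hΔL z₀) = ℘'[L] ((k : ℂ) * z₀) / 2 := by
        intro k hkm
        rw [nsmul_toPoint, ptY_toPoint hΔL (S.nat_mul_notMem hkm)]
      rw [Finset.sum_congr rfl h2, ← Finset.sum_div, sum_dwp_eq_zero S, zero_div]
    rw [h1]
    constructor
    · rw [ptX_short Wc hsm' hφ0, hX, ptX_short Wc hsm hP'0]
      have h3 : ∀ k ∈ Finset.Ico 1 p,
          ptX (vcEquiv (Top89.shortVC Wc) hsm P' + k • T) - ptX (k • T)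
          = ptX (P' + k • toPoint L hΔL z₀) - ptX (k • toPoint L hΔL z₀) := by
        intro k hkm
        rw [haddE k, hkE k, ptX_short Wc hsm (hadd0 k), ptX_short Wc hsm (hk0 k hkm)]
        ring
      rw [Finset.sum_congr rfl h3]
      ring
    · rw [ptY_short Wc hsm' hφ0, hY, hX, ptY_short Wc hsm hP'0]
      have h3 : ∀ k ∈ Finset.Ico 1 p,
          ptY (vcEquiv (Top89.shortVC Wc) hsm P' + k • T) - ptY (k • T)
          = ptY (P' + k • toPoint L hΔL z₀)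
            - Wc.a₁ / 2 * (ptX (P' + k • toPoint L hΔL z₀) - ptX (k • toPoint L hΔL z₀))
            - ptY (k • toPoint L hΔL z₀) := by
        intro k hkm
        rw [haddE k, hkE k, ptY_short Wc hsm (hadd0 k), ptY_short Wc hsm (hk0 k hkm)]
        ring
      have h4 : ∑ k ∈ Finset.Ico 1 p,
          (ptY (vcEquiv (Top89.shortVC Wc) hsm P' + k • T) - ptY (k • T))
          = ∑ k ∈ Finset.Ico 1 p, ptY (P' + k • toPoint L hΔL z₀)
            - Wc.a₁ / 2 * ∑ k ∈ Finset.Ico 1 p,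
              (ptX (P' + k • toPoint L hΔL z₀) - ptX (k • toPoint L hΔL z₀)) := by
        rw [Finset.sum_congr rfl h3, Finset.sum_sub_distrib, Finset.sum_sub_distrib,
          ← Finset.mul_sum, hsum0, sub_zero]
      rw [h4]
      ring

end Fermat.Agent.S12P.Iso.VeluC21
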